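import Fermat.Agent.S52.B3.Statement
import Fermat.Agent.S52.H396.NoRootABC

/-!
# S52 / B3: the frozen Prop `NoPolyRootAbs` (B3n-abs), and B3n for a family `(famA C4, famB C6)`

* `noPolyRootAbs : Fermat.Agent.S52.B3.NoPolyRootAbs` — the frozen abstract statement.
* `noPolyRoot_fam_of_coprime` — `NoPolyRoot (famA C4) (famB C6)` from the syzygy
  `C4^3 - C6^2 = d0 F^5`, coprimality of `C4`, `C6` over `ℚ` and degrees (NO squarefreeness of `F`).
* `noPolyRoot_fam_of_coprime_F` — same from coprimality of `C4` and `F`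
  (e.g. from a Bezout certificate `U C4 + V F = const ≠ 0`).
* `noPolyRoot_fam_of_bezout` — same from the Bezout certificate itself.
* `noPolyRoot_fam_of_coprime_ext` — same with coprimality checked over an extension field.
-/

namespace Fermat.Agent.S52.B3.H396

open Polynomial Fermat.Agent.S52.B3

/-- **B3n-abs**, the frozen Prop of `Fermat/Agent/S52/B3/Statement.lean`. -/
theorem noPolyRootAbs : NoPolyRootAbs := by
  intro A B F d₀ hd₀ hD hF hdeg hFpos hA P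
  exact Fermat.Agent.S52.H396.no_poly_root A B F d₀ hd₀ hD hF hdeg hFpos hA P

theorem famA_eq (C4 : ℤ[X]) : famA C4 = -27 * C4.map (Int.castRingHom ℚ) := by
  unfold famA
  rw [map_neg, map_ofNat]

theorem famB_eq (C6 : ℤ[X]) : famB C6 = -54 * C6.map (Int.castRingHom ℚ) := by
  unfold famB
  rw [map_neg, map_ofNat]

/-- **B3n for a family**, Mason–Stothers shape: no squarefreeness of `F` is needed. -/
theorem noPolyRoot_fam_of_coprime (C4 C6 : ℤ[X]) (F : ℚ[X]) (d₀ : ℚ) (hd₀ : d₀ ≠ 0)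
    (hD : (C4.map (Int.castRingHom ℚ)) ^ 3 - (C6.map (Int.castRingHom ℚ)) ^ 2 = C d₀ * F ^ 5)
    (hcop : IsCoprime (C4.map (Int.castRingHom ℚ)) (C6.map (Int.castRingHom ℚ)))
    (hsum : (C4.map (Int.castRingHom ℚ)).natDegree + (C6.map (Int.castRingHom ℚ)).natDegree
      ≤ 4 * F.natDegree + 2)
    (hdeg : 3 * (C4.map (Int.castRingHom ℚ)).natDegree ≤ 5 * F.natDegree)
    (hFpos : 0 < F.natDegree) :
    NoPolyRoot (famA C4) (famB C6) := by
  intro P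
  unfold quartic
  rw [famA_eq, famB_eq]
  exact Fermat.Agent.S52.H396.no_poly_root_c4c6 _ _ F d₀ hd₀ hD hcop hsum hdeg hFpos P

/-- Degrees `≤ 20`, `≤ 30`, `= 12`. -/
theorem noPolyRoot_fam_of_coprime' (C4 C6 : ℤ[X]) (F : ℚ[X]) (d₀ : ℚ) (hd₀ : d₀ ≠ 0)
    (hD : (C4.map (Int.castRingHom ℚ)) ^ 3 - (C6.map (Int.castRingHom ℚ)) ^ 2 = C d₀ * F ^ 5)
    (hcop : IsCoprime (C4.map (Int.castRingHom ℚ)) (C6.map (Int.castRingHom ℚ)))
    (h4 : C4.natDegree ≤ 20) (h6 : C6.natDegree ≤ 30) (hF : F.natDegree = 12) :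
    NoPolyRoot (famA C4) (famB C6) := by
  have e4 : (C4.map (Int.castRingHom ℚ)).natDegree ≤ 20 := natDegree_map_le.trans h4
  have e6 : (C6.map (Int.castRingHom ℚ)).natDegree ≤ 30 := natDegree_map_le.trans h6
  refine noPolyRoot_fam_of_coprime C4 C6 F d₀ hd₀ hD hcop ?_ ?_ ?_ <;> omega

/-- Coprimality of `C4`, `C6` from coprimality of `C4`, `F` and the syzygy. -/
theorem isCoprime_c4_c6_of_isCoprime_F {k : Type*} [Field k] (C4 C6 F : k[X]) (d₀ : k)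
    (hd₀ : d₀ ≠ 0) (hD : C4 ^ 3 - C6 ^ 2 = C d₀ * F ^ 5) (hcop : IsCoprime C4 F) :
    IsCoprime C4 C6 := by
  have ud0 : IsUnit (C d₀ : k[X]) := Fermat.Agent.S52.H396.isUnit_C_of_ne_zero hd₀
  have h5 : IsCoprime C4 (F ^ 5) := hcop.pow_right
  have h5' : IsCoprime C4 (C d₀ * F ^ 5) := (isCoprime_mul_unit_left_right ud0 _ _).mpr h5
  rw [← hD] at h5'
  have h6 : IsCoprime C4 (C6 ^ 2) := by
    have h := h5'.neg_right
    have e : C6 ^ 2 = -(C4 ^ 3 - C6 ^ 2) + C4 * C4 ^ 2 := by ring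
    rw [e]
    exact h.add_mul_left_right _
  rw [sq] at h6
  exact h6.of_mul_right_left

/-- **B3n for a family** from coprimality of `C4` and `F` (degrees `≤ 20`, `≤ 30`, `= 12`). -/
theorem noPolyRoot_fam_of_coprime_F (C4 C6 : ℤ[X]) (F : ℚ[X]) (d₀ : ℚ) (hd₀ : d₀ ≠ 0)
    (hD : (C4.map (Int.castRingHom ℚ)) ^ 3 - (C6.map (Int.castRingHom ℚ)) ^ 2 = C d₀ * F ^ 5)
    (hcop : IsCoprime (C4.map (Int.castRingHom ℚ)) F)
    (h4 : C4.natDegree ≤ 20) (h6 : C6.natDegree ≤ 30) (hF : F.natDegree = 12) :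
    NoPolyRoot (famA C4) (famB C6) :=
  noPolyRoot_fam_of_coprime' C4 C6 F d₀ hd₀ hD
    (isCoprime_c4_c6_of_isCoprime_F _ _ F d₀ hd₀ hD hcop) h4 h6 hF

/-- **B3n for a family** from a Bezout certificate `U * C4 + V * F = C κ`, `κ ≠ 0`. -/
theorem noPolyRoot_fam_of_bezout (C4 C6 : ℤ[X]) (F U V : ℚ[X]) (d₀ κ : ℚ) (hd₀ : d₀ ≠ 0)
    (hκ : κ ≠ 0)
    (hD : (C4.map (Int.castRingHom ℚ)) ^ 3 - (C6.map (Int.castRingHom ℚ)) ^ 2 = C d₀ * F ^ 5)
    (hbez : U * C4.map (Int.castRingHom ℚ) + V * F = C κ)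
    (h4 : C4.natDegree ≤ 20) (h6 : C6.natDegree ≤ 30) (hF : F.natDegree = 12) :
    NoPolyRoot (famA C4) (famB C6) := by
  refine noPolyRoot_fam_of_coprime_F C4 C6 F d₀ hd₀ hD ?_ h4 h6 hF
  refine ⟨C κ⁻¹ * U, C κ⁻¹ * V, ?_⟩
  have : C κ⁻¹ * U * C4.map (Int.castRingHom ℚ) + C κ⁻¹ * V * F
      = C κ⁻¹ * (U * C4.map (Int.castRingHom ℚ) + V * F) := by ring
  rw [this, hbez, ← map_mul, inv_mul_cancel₀ hκ, map_one]

/-- **B3n for a family**, coprimality of `C4`, `C6` checked over an extension field `K` of `ℚ`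
(e.g. `ℚ̄`, where the Tate-normal-form closed forms live); uses Mathlib `Polynomial.isCoprime_map`. -/
theorem noPolyRoot_fam_of_coprime_ext {K : Type*} [Field K] (f : ℚ →+* K)
    (C4 C6 : ℤ[X]) (F : ℚ[X]) (d₀ : ℚ) (hd₀ : d₀ ≠ 0)
    (hD : (C4.map (Int.castRingHom ℚ)) ^ 3 - (C6.map (Int.castRingHom ℚ)) ^ 2 = C d₀ * F ^ 5)
    (hcop : IsCoprime ((C4.map (Int.castRingHom ℚ)).map f) ((C6.map (Int.castRingHom ℚ)).map f))
    (h4 : C4.natDegree ≤ 20) (h6 : C6.natDegree ≤ 30) (hF : F.natDegree = 12) :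
    NoPolyRoot (famA C4) (famB C6) :=
  noPolyRoot_fam_of_coprime' C4 C6 F d₀ hd₀ hD ((Polynomial.isCoprime_map f).mp hcop) h4 h6 hF

end Fermat.Agent.S52.B3.H396
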